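/-
GATE-S (S33) / node [GAL-I], base layer, part 1 (helper18): INERTIA-FIXED LIFTS FOR THE PAIR
`w₁, w₂` at `q ∥ N`.

`A | q` a valuation subring of `ℚ̄`, `q ∥ N`, `I = A.inertiaSubgroupIn ℚ` acting coefficientwise on
`F_N = ℚ̄(X₀(N))`, `R₁ = redDataBar N A`, `R₂ = redData2 N A h = R₁ ∘ W_q`.  For EVERY `I`-stable
`ℚ̄`-subspace `V ≤ F_N` (e.g. `V = L(D)`, `D` an `I`-stable divisor) every `x ∈ V ∩ Rw₁ ∩ Rw₂` has
an `I`-FIXED `x' ∈ V ∩ Rw₁ ∩ Rw₂` with `red₁ x' = red₁ x` AND `red₂ x' = red₂ x`.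

This is the pair version of `GH/Gal/FixedLift` (S19): GATE-L's rational lift in a stable subspace
(`GL/Red/RatLiftGal.exists_rational_lift_of_stable`, helper96) at `B = Rw₁ ∩ Rw₂`,
`I = 𝔪₁ ∩ 𝔪₂`, with ORTH over `K₀ = ℚ̄^I` for the pair (`GL/Val/OrthK0.hasOrthoBasesK0`, helper45).
No hypothesis is left; wild inertia is no problem.
-/
import Fermat.Agent.GL.Red.RatLiftK0
import Fermat.Agent.GL.Val.OrthK0
import Fermat.Agent.GH.Gal.FixedLift

set_option autoImplicit false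
set_option linter.style.haveILetI false

noncomputable section

namespace Fermat.Agent.GS.Gal.FixedLift2

open HahnSeries ModularCurve IsLocalRing AlgebraicCurve
open Fermat.Agent.S24 Fermat.Agent.S24_helper62
open Fermat.Agent.GJ.J1 Fermat.Agent.GJ.J1.Val Fermat.Agent.GJ.FiniteLevel
open Fermat.Agent.GK.AL Fermat.Agent.GK.MultiVal
open Fermat.Agent.GL.Val.GaussK0 Fermat.Agent.GL.Val.SecondK0
open Fermat.Agent.GL.Local.InertiaField
open Fermat.Agent.GL.Coh.InvDescentFK Fermat.Agent.GL.Base.RatDescent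
open Fermat.Agent.GL.RatLift Fermat.Agent.GL.RatLiftK0
open Fermat.Agent.Common_helper32

variable (A : ValuationSubring Qb) (N : ℕ) [NeZero N] {q : ℕ} (h : ExactDvd q N)

/-- the two reduction data at `q ∥ N` are compatible (same `A`, same residue map), any level -/
theorem redCompat2 : RedCompat (redDataBar N A) (redData2 N A h) :=
  ⟨rfl, fun _ _ _ => rfl⟩

/-- a difference in `𝔪_w` has zero reduction: `w(x − x') < 1 ⟹ red x' = red x` -/
theorem red_eq_of_valuation_sub_lt {K F k Ft : Type*} [Field K] [Field F] [Algebra K F] [Field k]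
    [Field Ft] [Algebra k Ft] (R : RedData K F k Ft) {x x' : F} (hx : x ∈ R.Rw) (hx' : x' ∈ R.Rw)
    (hlt : R.Rw.valuation (x - x') < 1) : R.red ⟨x', hx'⟩ = R.red ⟨x, hx⟩ := by
  have hsub : (⟨x, hx⟩ : R.Rw) - ⟨x', hx'⟩ ∈ IsLocalRing.maximalIdeal R.Rw := by
    rw [IsLocalRing.mem_maximalIdeal, mem_nonunits_iff]
    intro hu
    have h1 : R.Rw.valuation (((⟨x, hx⟩ : R.Rw) - ⟨x', hx'⟩ : R.Rw) : F) = 1 :=
      (ValuationSubring.valuation_eq_one_iff _ _).1 hu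
    exact (ne_of_lt hlt) h1
  have h0 := (R.red_eq_zero_iff _).2 hsub
  rw [map_sub, sub_eq_zero] at h0
  exact h0.symm

/-- **inertia-fixed lifts for the pair `w₁, w₂` in an inertia-stable subspace** (`galF`
spelling). -/
theorem exists_fixed_lift2_of_stable (hA : (q : Qb) ∈ A.nonunits) (V : Submodule Qb (FN N))
    (hV : ∀ τ ∈ A.inertiaSubgroupIn ℚ, ∀ v ∈ V, galF N τ v ∈ V)
    {x : FN N} (hx1 : x ∈ (redDataBar N A).Rw) (hx2 : x ∈ (redData2 N A h).Rw) (hxV : x ∈ V) :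
    ∃ x' : FN N, x' ∈ V ∧ ∃ (h1 : x' ∈ (redDataBar N A).Rw) (h2 : x' ∈ (redData2 N A h).Rw),
      (∀ τ ∈ A.inertiaSubgroupIn ℚ, galF N τ x' = x') ∧
        (redDataBar N A).red ⟨x', h1⟩ = (redDataBar N A).red ⟨x, hx1⟩ ∧
        (redData2 N A h).red ⟨x', h2⟩ = (redData2 N A h).red ⟨x, hx2⟩ := by
  letI := inertiaAction A N
  have hq : q.Prime := h.prime
  have hnp := isNormPair2 (redCompat2 A N h)
  have ho := Fermat.Agent.GL.Val.OrthK0.hasOrthoBasesK0 A N h hA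
  obtain ⟨x0, hx0B, hx0V, hx0I⟩ := exists_rational_lift_of_stable
    (ι0 := ι0 A) (ι := mapK0Bar A N) (mapK0Bar_smul A N) (hA0 A)
    (exists_R0_sub_mem_nonunits A hq hA)
    (B0 := ball2 (redDataK0 A N) (redData2K0 A N h))
    (I0 := rad2 (redDataK0 A N) (redData2K0 A N h))
    (B := ball2 (redDataBar N A) (redData2 N A h))
    (I := rad2 (redDataBar N A) (redData2 N A h))
    (fun y => by
      rw [mem_ball2, mem_ball2]
      exact and_congr (mem_Rw1K0_iff A N y) (mem_Rw2K0_iff A N h y))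
    (fun y => by
      rw [mem_rad2, mem_rad2]
      exact and_congr (mem_nonunits_Rw1K0_iff A N y) (mem_nonunits_Rw2K0_iff A N h y))
    hnp ho
    (H := ↥(A.inertiaSubgroupIn ℚ))
    (fun σ c => ⟨(σ : Qb ≃ₐ[ℚ] Qb) c, galF_algebraMap (σ : Qb ≃ₐ[ℚ] Qb) c⟩)
    (fun y hy => exists_mapK0Bar_of_fixed A N y fun σ hσ => hy ⟨σ, hσ⟩)
    (fun y => by
      obtain ⟨Y, h1, h2, h3, h4⟩ := exists_smooth N y
      exact ⟨Y, h1, h2, fun σ z hz => h3 σ z hz, fun σ hσ => h4 σ hσ⟩)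
    V (fun σ v hv => hV σ σ.2 v hv) (mem_ball2.mpr ⟨hx1, hx2⟩) hxV
  have hB := mem_ball2.mp hx0B
  have hI := mem_rad2.mp hx0I
  have h1 : mapK0Bar A N x0 ∈ (redDataBar N A).Rw := (mem_Rw1K0_iff A N x0).1 hB.1
  have h2 : mapK0Bar A N x0 ∈ (redData2 N A h).Rw := (mem_Rw2K0_iff A N h x0).1 hB.2
  exact ⟨mapK0Bar A N x0, hx0V, h1, h2, fun τ hτ => galF_mapK0Bar A N τ hτ x0,
    red_eq_of_valuation_sub_lt _ hx1 h1 hI.1, red_eq_of_valuation_sub_lt _ hx2 h2 hI.2⟩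

/-- **inertia-fixed lifts for the pair in `L(D)`**, `D` an inertia-stable divisor: every
`x ∈ L(D) ∩ Rw₁ ∩ Rw₂` has an inertia-fixed `x' ∈ L(D) ∩ Rw₁ ∩ Rw₂` with the same two
reductions. -/
theorem exists_inertia_fixed_lift2 (hA : (q : Qb) ∈ A.nonunits) (D : Divisor Qb (FN N))
    (hD : ∀ τ ∈ A.inertiaSubgroupIn ℚ,
      arithmeticGalois (modularFunctionFieldFull N) τ • D = D)
    {x : FN N} (hx1 : x ∈ (redDataBar N A).Rw) (hx2 : x ∈ (redData2 N A h).Rw)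
    (hxD : x ∈ riemannRochSpace D) :
    ∃ x' : FN N, x' ∈ riemannRochSpace D ∧
      ∃ (h1 : x' ∈ (redDataBar N A).Rw) (h2 : x' ∈ (redData2 N A h).Rw),
      (∀ τ ∈ A.inertiaSubgroupIn ℚ,
        arithmeticGalois (modularFunctionFieldFull N) τ • x' = x') ∧
        (redDataBar N A).red ⟨x', h1⟩ = (redDataBar N A).red ⟨x, hx1⟩ ∧
        (redData2 N A h).red ⟨x', h2⟩ = (redData2 N A h).red ⟨x, hx2⟩ := by
  refine exists_fixed_lift2_of_stable A N h hA (riemannRochSpace D) (fun τ hτ v hv => ?_)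
    hx1 hx2 hxD
  rw [Fermat.Agent.GH.Gal.FixedLift.galF_eq_smul]
  have hmem := (Fermat.Agent.GH.Gal.smul_mem_riemannRochSpace_smul_iff
    (arithmeticGalois (modularFunctionFieldFull N) τ) D v).2 hv
  rwa [hD τ hτ] at hmem

end Fermat.Agent.GS.Gal.FixedLift2
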