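/-
GATE-S (S33) / node [GAL-I], FRAME LAYER (helper26): charts of an abstract disc frame that are FIXED
by a set of semilinear automorphisms preserving the residue discs (inertia).

Abstract frame of `GS/Frame/Vocab.lean` (helper92): `Φ : DiscData K F k Sp 𝒬`, `hΦ : DiscFacts Φ`.
`σ : SemilinearAut K F` PRESERVES THE DISCS when `P ∈ disc Q → σ • P ∈ disc Q` for every smooth
special point `Q` (an element of the inertia group of the place of the base under `Φ.A`: the place
reduction map is inertia-invariant, helper18's `rOf_smul` with `b = 1`).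

* `valueAt_smul_iff`        : `(σ e)(σ P) = σ (e(P))` for any `SemilinearAut` (no frame);
* `centre_fixed`            : a chart point whose PARAMETER is fixed by a disc-preserving `σ` has a
                              fixed CENTRE (the centre is the unique zero of the parameter on its disc,
                              `DiscFacts.disc_inj`);
* `FixesChart`              : centres and parameters of the chart are fixed by `σ`;
* `isCoord_smul_of_fixed`   : coordinates in a FIXED chart are equivariant, `T (σ ξ) = σ (T ξ)`;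
* `exists_fixed_chart`      : `ChartSupply` + a chart point with `G`-fixed parameter over every
                              special point off a finite set `S` ⟹ a chart off `S` fixed by all of `G`.

The only instance-level inputs left for [GAL-I] are (i) discs are inertia-stable (helper18) and
(ii) chart points with inertia-fixed parameter (pair fixed-lift `GS/Gal/FixedLift2` of helper18 applied
to a parameter in `L(m • C)`), exactly the two binders of `exists_fixed_chart`.
-/
import Mathlib
import Fermat.Agent.GS.Frame.Vocab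
import Fermat.Agent.GH.Gal.RedAut

set_option autoImplicit false

noncomputable section

open AlgebraicCurve

namespace Fermat.Agent.GS.Gal.FixChart

open Fermat.Agent.RRh45 Fermat.Agent.GS.Frame
open Fermat.Agent.GH (ValueAt)

variable {K F k Sp 𝒬 : Type*} [Field K] [Field F] [Algebra K F] [Field k]
  [CommRing Sp] [Algebra k Sp]

/-- values are transported by any semilinear automorphism: `(σ e)(σ P) = σ (e(P))`. -/
theorem valueAt_smul_iff (σ : SemilinearAut K F) (P : Place K F) (e : F) (a : K) :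
    ValueAt (σ • P) (σ • e) (SemilinearAut.baseAut σ a) ↔ ValueAt P e a := by
  unfold ValueAt
  rw [SemilinearAut.smul_toValuationSubring, ← SemilinearAut.smul_algebraMap, ← smul_sub]
  exact Fermat.Agent.GH.Gal.valuation_smul_lt_one_iff σ _ _

/-- `σ` maps every residue disc into itself. -/
def PreservesDiscs (Φ : DiscData K F k Sp 𝒬) (σ : SemilinearAut K F) : Prop :=
  ∀ (Q : 𝒬) (P : Place K F), P ∈ Φ.disc Q → σ • P ∈ Φ.disc Q

variable {Φ : DiscData K F k Sp 𝒬}

/-- **the centre of a chart point with fixed parameter is fixed**. -/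
theorem centre_fixed (hΦ : DiscFacts Φ) {σ : SemilinearAut K F} (hσ : PreservesDiscs Φ σ)
    {Q : 𝒬} (pt : CPt Φ Q) (ht : σ • pt.t = pt.t) : σ • pt.P = pt.P := by
  have hval : ValueAt (σ • pt.P) pt.t 0 := by
    have h := (valueAt_smul_iff σ pt.P pt.t 0).2 pt.ht0
    rwa [ht, map_zero] at h
  exact hΦ.disc_inj pt 0 (σ • pt.P) pt.P (hσ Q pt.P pt.hP) pt.hP hval pt.ht0

/-- a chart is FIXED by `σ`: centres and parameters are fixed. -/
def FixesChart (σ : SemilinearAut K F) {n : ℕ} (𝔠 : Chart Φ n) : Prop :=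
  ∀ i, σ • (𝔠.pt i).P = (𝔠.pt i).P ∧ σ • (𝔠.pt i).t = (𝔠.pt i).t

/-- the base divisor of a fixed chart is fixed. -/
theorem smul_D0_of_fixed {σ : SemilinearAut K F} {n : ℕ} {𝔠 : Chart Φ n}
    (hfix : FixesChart σ 𝔠) : σ • 𝔠.D0 = 𝔠.D0 := by
  unfold Chart.D0
  rw [Finset.smul_sum]
  exact Finset.sum_congr rfl fun i _ => by rw [SemilinearAut.smul_single, (hfix i).1]

/-- **coordinates in a FIXED chart are equivariant**: `T (σ ξ) = σ (T ξ)`. -/
theorem isCoord_smul_of_fixed {σ : SemilinearAut K F} (hσ : PreservesDiscs Φ σ) {n : ℕ}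
    {𝔠 : Chart Φ n} (hfix : FixesChart σ 𝔠) {ξ : Pic0 K F} {τ : Fin n → K}
    (h : IsCoord 𝔠 ξ τ) :
    IsCoord 𝔠 (σ • ξ) (fun i => SemilinearAut.baseAut σ (τ i)) := by
  obtain ⟨Pτ, hdisc, hval, hdeg, hξ⟩ := h
  have hsum : (∑ i, Finsupp.single (σ • Pτ i) (1 : ℤ)) - 𝔠.D0 =
      σ • ((∑ i, Finsupp.single (Pτ i) (1 : ℤ)) - 𝔠.D0) := by
    rw [smul_sub, smul_D0_of_fixed hfix, Finset.smul_sum]
    congr 1
    exact Finset.sum_congr rfl fun i _ => (SemilinearAut.smul_single σ _ _).symm
  refine ⟨fun i => σ • Pτ i, fun i => hσ _ _ (hdisc i), fun i => ?_, ?_, ?_⟩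
  · have h1 := (valueAt_smul_iff σ (Pτ i) (𝔠.pt i).t (τ i)).2 (hval i)
    rwa [(hfix i).2] at h1
  · rw [hsum]
    exact SemilinearAut.smul_mem_degZero σ hdeg
  · rw [← hξ, SemilinearAut.pic0_smul_mk]
    exact congrArg Pic0.mk (Subtype.ext (by rw [SemilinearAut.coe_degZeroSMulHom]; exact hsum))

/-- **existence of a fixed chart**: if charts exist off every finite set of special points and over
every special point off `S` there is a chart point whose parameter is fixed by every element of
`G`, then there is a chart off `S` fixed by every element of `G`. -/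
theorem exists_fixed_chart (hΦ : DiscFacts Φ) (G : Set (SemilinearAut K F))
    (hG : ∀ σ ∈ G, PreservesDiscs Φ σ) {n : ℕ} (hsupply : ChartSupply Φ n) (S : Finset 𝒬)
    (hpt : ∀ Q : 𝒬, Q ∉ S → ∃ pt : CPt Φ Q, ∀ σ ∈ G, σ • pt.t = pt.t) :
    ∃ 𝔠 : Chart Φ n, (∀ i, 𝔠.Q i ∉ S) ∧ ∀ σ ∈ G, FixesChart σ 𝔠 := by
  obtain ⟨𝔠, h𝔠⟩ := hsupply S
  choose pt hpt' using fun i => hpt (𝔠.Q i) (h𝔠 i)
  refine ⟨⟨𝔠.Q, 𝔠.hQ, pt, 𝔠.hns⟩, h𝔠, fun σ hσ i => ⟨?_, hpt' i σ hσ⟩⟩
  exact centre_fixed hΦ (hG σ hσ) (pt i) (hpt' i σ hσ)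

/-- the coordinates of `σ ξ` in a fixed chart, when coordinates are unique: the `heq` field of the
abstract [LOC²] (`GS/Loc2/Abs.lean`). -/
theorem coord_smul_eq {n : ℕ} (hu : CoordUnique Φ n) {σ : SemilinearAut K F}
    (hσ : PreservesDiscs Φ σ) {𝔠 : Chart Φ n} (hfix : FixesChart σ 𝔠) {ξ : Pic0 K F}
    {τ τ' : Fin n → K} (h : IsCoord 𝔠 ξ τ) (h' : IsCoord 𝔠 (σ • ξ) τ') :
    τ' = fun i => SemilinearAut.baseAut σ (τ i) :=
  hu 𝔠 (σ • ξ) τ' _ h' (isCoord_smul_of_fixed hσ hfix h)

end Fermat.Agent.GS.Gal.FixChart
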