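/-
GATE-S (S33) / node [GAL-I], base layer, part 2 (helper18): the decomposition group acts on the
PAIR of Gauss reduction data `R₁ = redDataBar N A`, `R₂ = redData2 N A h = R₁ ∘ W_q` at `q ∥ N`.

Abstract layer (any two reduction data on one function field):
* `RedAut2 R1 R2` : a pair `φ₁ : RedAut R1`, `φ₂ : RedAut R2` (GH/Gal/RedAut.lean) with the SAME
  generic component `σ`;
* `RedAut2.smul_mem_redSpace2_smul_iff` : `(b₁ z₁, b₂ z₂) ∈ redSpace2 (σ D) ↔ z ∈ redSpace2 D`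
  (helper16's pair reduction `GS/Nodal/LSR2Defs.redSpace2`);
* `RedAut2.redSpace2_smul_of_trivial` : `b₁ = b₂ = 1 ⟹ redSpace2 (σ D) = redSpace2 D`, plus the
  divisor bookkeeping `σ (single v m + n • C) = single (σ v) m + n • C` for `σ C = C`.

Concrete layer:
* `decompRedAut2 N A h σ hσ : RedAut (redData2 N A h)` for `σ` in the decomposition group, generic
  component `arithmeticGalois (modularFunctionFieldFull N) σ` (the same as for `R₁`), special
  component the SAME coefficientwise residue automorphism `fresAut` (both residue fields are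
  `FresBar N A`);  `decompRedAut2_b_of_inertia : b = 1`;
* `decompPair N A h σ hσ : RedAut2 (redDataBar N A) (redData2 N A h)`;
* `redSpace2_smul_of_inertia` : the pair reduction of `L(τ D)` is the pair reduction of `L(D)`,
  `τ` in the inertia group — inertia preserves every residue disc of the nodal frame, whatever the
  construction of the discs from `redSpace2`.
-/
import Mathlib
import Fermat.Agent.GH.Gal.DecompAct
import Fermat.Agent.GK.AL.SecondValGal
import Fermat.Agent.GS.Nodal.LSR2Defs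

set_option autoImplicit false

noncomputable section

open AlgebraicCurve HahnSeries ModularCurve IsLocalRing

namespace Fermat.Agent.GS.Gal.PairAct

open Fermat.Agent.RRh45 Fermat.Agent.GJ.J1 Fermat.Agent.GJ.J1.Val Fermat.Agent.GK.MultiVal
  Fermat.Agent.GK.AL Fermat.Agent.GH.Gal Fermat.Agent.GS.Nodal.LSR2 Fermat.Agent.S24

/-! ### Abstract layer -/

section Abstract

variable {K F k Ft1 Ft2 : Type*} [Field K] [Field F] [Algebra K F] [Field k]
  [Field Ft1] [Algebra k Ft1] [Field Ft2] [Algebra k Ft2]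

/-- an automorphism of a pair of reduction data on the same function field: the same
automorphism of the generic fibre, one automorphism for each component of the special fibre. -/
structure RedAut2 (R1 : RedData K F k Ft1) (R2 : RedData K F k Ft2) where
  /-- the automorphism of the first datum -/
  φ₁ : RedAut R1
  /-- the automorphism of the second datum -/
  φ₂ : RedAut R2
  σ_eq : φ₂.σ = φ₁.σ

namespace RedAut2

variable {R1 : RedData K F k Ft1} {R2 : RedData K F k Ft2} (Φ : RedAut2 R1 R2)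

/-- the common generic component -/
def σ : SemilinearAut K F := Φ.φ₁.σ

theorem σ_eq₁ : Φ.φ₁.σ = Φ.σ := rfl

theorem σ_eq₂ : Φ.φ₂.σ = Φ.σ := Φ.σ_eq

/-- the inverse pair -/
def inv : RedAut2 R1 R2 where
  φ₁ := Φ.φ₁.inv
  φ₂ := Φ.φ₂.inv
  σ_eq := by
    show Φ.φ₂.σ⁻¹ = Φ.φ₁.σ⁻¹
    rw [Φ.σ_eq]

theorem inv_σ : Φ.inv.σ = Φ.σ⁻¹ := rfl

theorem smul_mem_redSpace2_smul (hc : RedCompat R1 R2) (D : Divisor K F) {z : Ft1 × Ft2}
    (hz : z ∈ redSpace2 hc D) :
    (Φ.φ₁.b • z.1, Φ.φ₂.b • z.2) ∈ redSpace2 hc (Φ.σ • D) := by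
  obtain ⟨x, h1, h2, hx, e1, e2⟩ := hz
  have h2' : Φ.σ • x ∈ R2.Rw := by
    have := Φ.φ₂.mem_Rw x h2
    rwa [Φ.σ_eq₂] at this
  refine ⟨Φ.σ • x, Φ.φ₁.mem_Rw x h1, h2',
    (smul_mem_riemannRochSpace_smul_iff Φ.σ D x).2 hx, ?_, ?_⟩
  · show R1.red ⟨Φ.φ₁.σ • x, _⟩ = Φ.φ₁.b • z.1
    rw [Φ.φ₁.red_smul x h1, e1]
  · show R2.red ⟨Φ.σ • x, h2'⟩ = Φ.φ₂.b • z.2
    have h3 : (⟨Φ.σ • x, h2'⟩ : R2.Rw) = ⟨Φ.φ₂.σ • x, Φ.φ₂.mem_Rw x h2⟩ :=
      Subtype.ext (congrArg (· • x) Φ.σ_eq₂.symm)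
    rw [h3, Φ.φ₂.red_smul x h2, e2]

/-- **the pair reduction is equivariant**: `(b₁, b₂) • redSpace2 D = redSpace2 (σ D)` -/
theorem smul_mem_redSpace2_smul_iff (hc : RedCompat R1 R2) (D : Divisor K F) (z : Ft1 × Ft2) :
    (Φ.φ₁.b • z.1, Φ.φ₂.b • z.2) ∈ redSpace2 hc (Φ.σ • D) ↔ z ∈ redSpace2 hc D := by
  refine ⟨fun hz => ?_, Φ.smul_mem_redSpace2_smul hc D⟩
  have h := Φ.inv.smul_mem_redSpace2_smul hc (Φ.σ • D) hz
  rw [inv_σ, inv_smul_smul] at h
  have e1 : Φ.inv.φ₁.b • Φ.φ₁.b • z.1 = z.1 := inv_smul_smul Φ.φ₁.b z.1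
  have e2 : Φ.inv.φ₂.b • Φ.φ₂.b • z.2 = z.2 := inv_smul_smul Φ.φ₂.b z.2
  have e : ((Φ.inv.φ₁.b • (Φ.φ₁.b • z.1, Φ.φ₂.b • z.2).1,
      Φ.inv.φ₂.b • (Φ.φ₁.b • z.1, Φ.φ₂.b • z.2).2) : Ft1 × Ft2) = z := Prod.ext e1 e2
  rwa [e] at h

/-- **an automorphism acting trivially on both components of the special fibre preserves the
pair reduction of every `L(D)`.** -/
theorem redSpace2_smul_of_trivial (hc : RedCompat R1 R2) (hb1 : Φ.φ₁.b = 1) (hb2 : Φ.φ₂.b = 1)
    (D : Divisor K F) : redSpace2 hc (Φ.σ • D) = redSpace2 hc D := by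
  ext z
  have h := Φ.smul_mem_redSpace2_smul_iff hc D z
  rw [hb1, hb2, one_smul, one_smul] at h
  exact h

end RedAut2

/-- divisor bookkeeping for the residue discs of the nodal frame: a stable pencil divisor. -/
theorem smul_single_add_nsmul (g : SemilinearAut K F) (v : Place K F) (m : ℤ) (n : ℕ)
    {C : Divisor K F} (hC : g • C = C) :
    g • (Finsupp.single v m + n • C) = Finsupp.single (g • v) m + n • C := by
  rw [smul_add, SemilinearAut.smul_single, smul_comm, hC]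

theorem smul_nsmul_of_fixed (g : SemilinearAut K F) (n : ℕ) {C : Divisor K F} (hC : g • C = C) :
    g • (n • C) = n • C := by
  rw [smul_comm, hC]

end Abstract

/-! ### Concrete layer: `q ∥ N` -/

section Concrete

variable {q : ℕ} (N : ℕ) [NeZero N] (A : ValuationSubring Kbar) (h : ExactDvd q N)

/-- `galF` is the prelude arithmetic Galois action. -/
theorem galF_eq_smul (σ : Kbar ≃ₐ[ℚ] Kbar) (x : FN N) :
    galF N σ x = arithmeticGalois (modularFunctionFieldFull N) σ • x := rfl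

/-- the decomposition group acts on the first reduction datum (`GH/Gal/DecompAct`) -/
abbrev decompRedAut1 (σ : Kbar ≃ₐ[ℚ] Kbar) (hσ : σ ∈ A.decompositionSubgroup ℚ) :
    RedAut (redDataBar N A) :=
  decompRedAut A (modularFunctionFieldFull N) (hasGaussFrac_bar N A) σ hσ

theorem smul_mem_Rw2 (σ : Kbar ≃ₐ[ℚ] Kbar) (hσ : σ ∈ A.decompositionSubgroup ℚ) (x : FN N)
    (hx : x ∈ (redData2 N A h).Rw) :
    arithmeticGalois (modularFunctionFieldFull N) σ • x ∈ (redData2 N A h).Rw :=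
  galF_mem_Rw2 hσ hx

theorem mem_Rw2_of_smul_mem (σ : Kbar ≃ₐ[ℚ] Kbar) (hσ : σ ∈ A.decompositionSubgroup ℚ) (x : FN N)
    (hx : arithmeticGalois (modularFunctionFieldFull N) σ • x ∈ (redData2 N A h).Rw) :
    x ∈ (redData2 N A h).Rw := by
  have h1 := smul_mem_Rw2 N A h σ⁻¹ (inv_mem hσ) _ hx
  rwa [map_inv, inv_smul_smul] at h1

/-- **`red₂ (σ x) = σ̄ (red₂ x)`** for `σ` in the decomposition group, with the SAME residue
automorphism as for `red₁`. -/
theorem red2_smul (σ : Kbar ≃ₐ[ℚ] Kbar) (hσ : σ ∈ A.decompositionSubgroup ℚ) (x : FN N)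
    (hx : x ∈ (redData2 N A h).Rw) :
    (redData2 N A h).red
        ⟨arithmeticGalois (modularFunctionFieldFull N) σ • x, smul_mem_Rw2 N A h σ hσ x hx⟩ =
      (decompRedAut1 N A σ hσ).b • (redData2 N A h).red ⟨x, hx⟩ := by
  have hx1 : wAut h x ∈ (redDataBar N A).Rw := hx
  have hx2 : galF N σ (wAut h x) ∈ (redDataBar N A).Rw := galF_mem_Rw1 hσ hx1
  have hx3 : galF N σ x ∈ (redData2 N A h).Rw := galF_mem_Rw2 hσ hx
  have h1 : (⟨wAut h (galF N σ x), hx3⟩ : (redDataBar N A).Rw) =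
      ⟨galF N σ (wAut h x), hx2⟩ := Subtype.ext (wAut_galF h σ x)
  have h2 : (redData2 N A h).red ⟨galF N σ x, hx3⟩ =
      (redDataBar N A).red ⟨galF N σ (wAut h x), hx2⟩ := by
    rw [red2_eq, h1]
  have h3 : (redDataBar N A).red ⟨galF N σ (wAut h x), hx2⟩ =
      (decompRedAut1 N A σ hσ).b • (redDataBar N A).red ⟨wAut h x, hx1⟩ :=
    (decompRedAut1 N A σ hσ).red_smul (wAut h x) hx1
  exact h2.trans h3

/-- **the decomposition group acts on the second reduction datum.** -/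
def decompRedAut2 (σ : Kbar ≃ₐ[ℚ] Kbar) (hσ : σ ∈ A.decompositionSubgroup ℚ) :
    RedAut (redData2 N A h) where
  σ := arithmeticGalois (modularFunctionFieldFull N) σ
  b := (decompRedAut1 N A σ hσ).b
  mem_Rw := smul_mem_Rw2 N A h σ hσ
  mem_Rw' := mem_Rw2_of_smul_mem N A h σ hσ
  red_smul := red2_smul N A h σ hσ

@[simp] theorem decompRedAut2_σ (σ : Kbar ≃ₐ[ℚ] Kbar) (hσ : σ ∈ A.decompositionSubgroup ℚ) :
    (decompRedAut2 N A h σ hσ).σ = arithmeticGalois (modularFunctionFieldFull N) σ := rfl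

theorem decompRedAut2_b (σ : Kbar ≃ₐ[ℚ] Kbar) (hσ : σ ∈ A.decompositionSubgroup ℚ) :
    (decompRedAut2 N A h σ hσ).b =
      fresAut A (modularFunctionFieldFull N) (hasGaussFrac_bar N A) σ hσ := rfl

/-- inertia acts trivially on the second component of the special fibre -/
theorem decompRedAut2_b_of_inertia {σ : Kbar ≃ₐ[ℚ] Kbar} (hσ : σ ∈ A.inertiaSubgroupIn ℚ) :
    (decompRedAut2 N A h σ
      (Fermat.Agent.S05.mem_decompositionSubgroup_of_mem_inertiaSubgroupIn hσ)).b = 1 :=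
  fresAut_of_inertia A (modularFunctionFieldFull N) (hasGaussFrac_bar N A) hσ

/-- **the decomposition group acts on the pair `(R₁, R₂)`.** -/
def decompPair (σ : Kbar ≃ₐ[ℚ] Kbar) (hσ : σ ∈ A.decompositionSubgroup ℚ) :
    RedAut2 (redDataBar N A) (redData2 N A h) where
  φ₁ := decompRedAut1 N A σ hσ
  φ₂ := decompRedAut2 N A h σ hσ
  σ_eq := rfl

@[simp] theorem decompPair_σ (σ : Kbar ≃ₐ[ℚ] Kbar) (hσ : σ ∈ A.decompositionSubgroup ℚ) :
    (decompPair N A h σ hσ).σ = arithmeticGalois (modularFunctionFieldFull N) σ := rfl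

/-- the two reduction data at `q ∥ N` are compatible, any level -/
theorem redCompat : RedCompat (redDataBar N A) (redData2 N A h) :=
  ⟨rfl, fun _ _ _ => rfl⟩

/-- **inertia preserves the pair reduction of every `L(D)`**:
`redSpace2 (τ D) = redSpace2 D` for `τ` in the inertia group. -/
theorem redSpace2_smul_of_inertia (hc : RedCompat (redDataBar N A) (redData2 N A h))
    {τ : Kbar ≃ₐ[ℚ] Kbar} (hτ : τ ∈ A.inertiaSubgroupIn ℚ) (D : Divisor Kbar (FN N)) :
    redSpace2 hc (arithmeticGalois (modularFunctionFieldFull N) τ • D) = redSpace2 hc D :=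
  (decompPair N A h τ
    (Fermat.Agent.S05.mem_decompositionSubgroup_of_mem_inertiaSubgroupIn hτ)).redSpace2_smul_of_trivial
    hc (decompRedAut_b_of_inertia A (modularFunctionFieldFull N) (hasGaussFrac_bar N A) hτ)
    (decompRedAut2_b_of_inertia N A h hτ) D

/-- the decomposition-group form: `(σ̄ z₁, σ̄ z₂) ∈ redSpace2 (σ D) ↔ z ∈ redSpace2 D`. -/
theorem smul_mem_redSpace2_smul_iff_of_decomp (hc : RedCompat (redDataBar N A) (redData2 N A h))
    (σ : Kbar ≃ₐ[ℚ] Kbar) (hσ : σ ∈ A.decompositionSubgroup ℚ) (D : Divisor Kbar (FN N))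
    (z : FresBar N A × FresBar N A) :
    (fresAut A (modularFunctionFieldFull N) (hasGaussFrac_bar N A) σ hσ • z.1,
      fresAut A (modularFunctionFieldFull N) (hasGaussFrac_bar N A) σ hσ • z.2) ∈
        redSpace2 hc (arithmeticGalois (modularFunctionFieldFull N) σ • D) ↔ z ∈ redSpace2 hc D :=
  (decompPair N A h σ hσ).smul_mem_redSpace2_smul_iff hc D z

end Concrete

end Fermat.Agent.GS.Gal.PairAct
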