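/-
GATE-S (S33) / node [GAL-I], binder (hG) of `GS/Gal/FixChart.exists_fixed_chart` (helper18):
THE RESIDUE DISCS OF THE NODAL FRAME ARE INERTIA-STABLE.

Abstract layer: `Φ : RedAut2 R1 R2` (`GS/Gal/PairAct.lean`) acting trivially on both components of
the special fibre, `H : NodalHyp hc P Q C C₁ C₂ g c n₀` (helper16) with `Φ.σ • C = C`:

* `red_smul`        : `Red H D E₁ E₂ → Red H (Φ.σ • D) E₁ E₂`;
* `smul_mem_disc1`, `smul_mem_disc2`, `goodPlace_smul` : the discs `disc_i H Q'` (hence the good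
  places) are `Φ.σ`-stable;
* `preservesDiscs_glueData` : `FixChart.PreservesDiscs (glueData hc Φ1 Φ2 hB2 hexcl P Q g) σ` from the
  two component statements (any local frames), and `preservesDiscs_of_nodal` for
  `Φ_i := fibreHyp_i_of_nodal H hFF` (helper16's seam `GS/Nodal/FibreHyp2.lean`).

Concrete layer (`q ∥ N`, `A | q`): `preservesDiscs_of_inertia` — for `τ` in the inertia group of `A`
and a `τ`-stable pencil divisor `C`, `arithmeticGalois τ` preserves the discs of the nodal frame of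
`(redDataBar N A, redData2 N A h)`.
-/
import Mathlib
import Fermat.Agent.GS.Gal.PairAct
import Fermat.Agent.GS.Gal.FixChart
import Fermat.Agent.GS.Nodal.FibreHyp2
import Fermat.Agent.GS.Frame.Glue.Data

set_option autoImplicit false
set_option linter.unusedSectionVars false

noncomputable section

open AlgebraicCurve ModularCurve

namespace Fermat.Agent.GS.Gal.DiscStable

open Fermat.Agent.RRh45 Fermat.Agent.GJ.J1 Fermat.Agent.GJ.J1.Val Fermat.Agent.GK.MultiVal
  Fermat.Agent.GK.AL Fermat.Agent.GH.Gal Fermat.Agent.GS.Nodal.LSR2 Fermat.Agent.S24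
  Fermat.Agent.GS.Gal.PairAct Fermat.Agent.GS.Gal.FixChart Fermat.Agent.GS.Frame
  Fermat.Agent.GS.Frame.Local Fermat.Agent.GS.Frame.Glue Fermat.Agent.GS.Nodal.FibreHyp2
  Fermat.Agent.GS.Nodal.ROfSurj2

/-! ### Abstract layer -/

section Abstract

variable {K F k Ft1 Ft2 : Type*} [Field K] [Field F] [Algebra K F] [Field k]
  [Field Ft1] [Algebra k Ft1] [Field Ft2] [Algebra k Ft2]
variable {R1 : RedData K F k Ft1} {R2 : RedData K F k Ft2} {hc : RedCompat R1 R2}
variable {ι : Type*} {P : ι → Place k Ft1} {Q : ι → Place k Ft2}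
variable {C : Divisor K F} {C₁ : Divisor k Ft1} {C₂ : Divisor k Ft2} {g c : ℤ} {n₀ : ℕ}
variable [FiniteResidues K F] [HasPrincipalDivisors K F] [Nonempty (Place K F)]
variable [FiniteResidues k Ft1] [HasPrincipalDivisors k Ft1] [Nonempty (Place k Ft1)]
variable [FiniteResidues k Ft2] [HasPrincipalDivisors k Ft2] [Nonempty (Place k Ft2)]

variable (Φ : RedAut2 R1 R2)

/-- **reductions of divisors are transported** by an automorphism of the pair acting trivially on
the special fibre and fixing the pencil divisor. -/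
theorem red_smul {H : NodalHyp hc P Q C C₁ C₂ g c n₀} (hb1 : Φ.φ₁.b = 1) (hb2 : Φ.φ₂.b = 1)
    (hC : Φ.σ • C = C) {D : Divisor K F} {E₁ : Divisor k Ft1} {E₂ : Divisor k Ft2}
    (hR : Red H D E₁ E₂) : Red H (Φ.σ • D) E₁ E₂ where
  big := by
    have h := (smul_le_smul_iff Φ.σ (n₀ • C) D).2 hR.big
    rwa [smul_nsmul_of_fixed Φ.σ n₀ hC] at h
  node1 := hR.node1
  node2 := hR.node2
  big1 := hR.big1
  big2 := hR.big2
  deg_eq := by rw [SemilinearAut.degree_smul]; exact hR.deg_eq
  eq := by rw [Φ.redSpace2_smul_of_trivial hc hb1 hb2 D]; exact hR.eq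

/-- the discs of the first component are stable -/
theorem smul_mem_disc1 {H : NodalHyp hc P Q C C₁ C₂ g c n₀} (hb1 : Φ.φ₁.b = 1)
    (hb2 : Φ.φ₂.b = 1) (hC : Φ.σ • C = C) {v : Place K F} {Q' : Place k Ft1}
    (hv : v ∈ disc1 H Q') : Φ.σ • v ∈ disc1 H Q' := by
  have h := red_smul Φ hb1 hb2 hC hv
  rwa [smul_single_add_nsmul Φ.σ v 1 n₀ hC] at h

/-- the discs of the second component are stable -/
theorem smul_mem_disc2 {H : NodalHyp hc P Q C C₁ C₂ g c n₀} (hb1 : Φ.φ₁.b = 1)
    (hb2 : Φ.φ₂.b = 1) (hC : Φ.σ • C = C) {v : Place K F} {Q' : Place k Ft2}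
    (hv : v ∈ disc2 H Q') : Φ.σ • v ∈ disc2 H Q' := by
  have h := red_smul Φ hb1 hb2 hC hv
  rwa [smul_single_add_nsmul Φ.σ v 1 n₀ hC] at h

/-- good places are stable -/
theorem goodPlace_smul {H : NodalHyp hc P Q C C₁ C₂ g c n₀} (hb1 : Φ.φ₁.b = 1)
    (hb2 : Φ.φ₂.b = 1) (hC : Φ.σ • C = C) {v : Place K F} (hv : GoodPlace H v) :
    GoodPlace H (Φ.σ • v) := by
  obtain ⟨E₁, E₂, hR⟩ := hv
  refine ⟨E₁, E₂, ?_⟩
  have h := red_smul Φ hb1 hb2 hC hR
  rwa [smul_single_add_nsmul Φ.σ v 1 n₀ hC] at h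

omit [FiniteResidues K F] [HasPrincipalDivisors K F] [Nonempty (Place K F)]
  [FiniteResidues k Ft1] [HasPrincipalDivisors k Ft1] [Nonempty (Place k Ft1)]
  [FiniteResidues k Ft2] [HasPrincipalDivisors k Ft2] [Nonempty (Place k Ft2)] in
/-- **the discs of a glued frame are stable** as soon as the partial place reductions of the two
components are invariant. -/
theorem preservesDiscs_glueData (σ : SemilinearAut K F) (Φ1 : FibreHyp R1) (Φ2 : FibreHyp R2)
    (hB2 : Φ2.B = Φ1.B)
    (hexcl : ∀ (X : Place K F) (q : Place k Ft1) (q' : Place k Ft2),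
      Φ1.rOf X = some q → Φ2.rOf X ≠ some q') (g : ℤ)
    (h1 : ∀ (X : Place K F) (q : Place k Ft1), Φ1.rOf X = some q → Φ1.rOf (σ • X) = some q)
    (h2 : ∀ (X : Place K F) (q : Place k Ft2), Φ2.rOf X = some q → Φ2.rOf (σ • X) = some q) :
    PreservesDiscs (glueData hc Φ1 Φ2 hB2 hexcl P Q g) σ := by
  rintro (q | q) X hX
  · exact h1 X q.1 hX
  · exact h2 X q.1 hX

/-- **the discs of the nodal frame are stable** (local frames of `GS/Nodal/FibreHyp2.lean`). -/
theorem preservesDiscs_of_nodal (H : NodalHyp hc P Q C C₁ C₂ g c n₀) {S1 : Set (Place k Ft1)}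
    {S2 : Set (Place k Ft2)} (hFF : FF2 R1 R2 (disc1 H) (disc2 H) S1 S2)
    (hexcl : ∀ (X : Place K F) (q : Place k Ft1) (q' : Place k Ft2),
      (fibreHyp1_of_nodal H hFF).rOf X = some q → (fibreHyp2_of_nodal H hFF).rOf X ≠ some q')
    (g' : ℤ) (hb1 : Φ.φ₁.b = 1) (hb2 : Φ.φ₂.b = 1) (hC : Φ.σ • C = C) :
    PreservesDiscs
      (glueData hc (fibreHyp1_of_nodal H hFF) (fibreHyp2_of_nodal H hFF) rfl hexcl P Q g') Φ.σ := by
  refine preservesDiscs_glueData Φ.σ (fibreHyp1_of_nodal H hFF) (fibreHyp2_of_nodal H hFF) rfl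
    hexcl g' (fun X q hX => ?_) (fun X q hX => ?_)
  · have hu : ∀ (v : Place K F) (Q' Q'' : Place k Ft1), v ∈ disc1 H Q' → v ∈ disc1 H Q'' →
        Q' = Q'' := fun _ _ _ h h' => disc1_unique h h'
    exact (fibreHyp1_rOf_eq_some_iff hu _ q).2
      (smul_mem_disc1 Φ hb1 hb2 hC ((fibreHyp1_rOf_eq_some_iff hu X q).1 hX))
  · have hu : ∀ (v : Place K F) (Q' Q'' : Place k Ft2), v ∈ disc2 H Q' → v ∈ disc2 H Q'' →
        Q' = Q'' := fun _ _ _ h h' => disc2_unique h h'
    exact (fibreHyp2_rOf_eq_some_iff hu _ q).2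
      (smul_mem_disc2 Φ hb1 hb2 hC ((fibreHyp2_rOf_eq_some_iff hu X q).1 hX))

end Abstract

/-! ### Concrete layer: the modular pair at `q ∥ N` -/

section Concrete

variable {q : ℕ} (N : ℕ) [NeZero N] (A : ValuationSubring Kbar) (h : ExactDvd q N)
variable {hc : RedCompat (redDataBar N A) (redData2 N A h)}
variable {ι : Type*} {P : ι → Place (IsLocalRing.ResidueField A) (FresBar N A)}
  {Q : ι → Place (IsLocalRing.ResidueField A) (FresBar N A)}
variable {C : Divisor Kbar (FN N)} {C₁ C₂ : Divisor (IsLocalRing.ResidueField A) (FresBar N A)}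
  {g c : ℤ} {n₀ : ℕ}
variable [FiniteResidues Kbar (FN N)] [HasPrincipalDivisors Kbar (FN N)]
  [Nonempty (Place Kbar (FN N))]
variable [FiniteResidues (IsLocalRing.ResidueField A) (FresBar N A)]
  [HasPrincipalDivisors (IsLocalRing.ResidueField A) (FresBar N A)]
  [Nonempty (Place (IsLocalRing.ResidueField A) (FresBar N A))]

/-- inertia preserves the discs of the first component -/
theorem smul_mem_disc1_of_inertia (H : NodalHyp hc P Q C C₁ C₂ g c n₀) {τ : Kbar ≃ₐ[ℚ] Kbar}
    (hτ : τ ∈ A.inertiaSubgroupIn ℚ)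
    (hC : arithmeticGalois (modularFunctionFieldFull N) τ • C = C) {v : Place Kbar (FN N)}
    {Q' : Place (IsLocalRing.ResidueField A) (FresBar N A)} (hv : v ∈ disc1 H Q') :
    arithmeticGalois (modularFunctionFieldFull N) τ • v ∈ disc1 H Q' :=
  smul_mem_disc1 (decompPair N A h τ
      (Fermat.Agent.S05.mem_decompositionSubgroup_of_mem_inertiaSubgroupIn hτ))
    (decompRedAut_b_of_inertia A (modularFunctionFieldFull N) (hasGaussFrac_bar N A) hτ)
    (decompRedAut2_b_of_inertia N A h hτ) hC hv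

/-- inertia preserves the discs of the second component -/
theorem smul_mem_disc2_of_inertia (H : NodalHyp hc P Q C C₁ C₂ g c n₀) {τ : Kbar ≃ₐ[ℚ] Kbar}
    (hτ : τ ∈ A.inertiaSubgroupIn ℚ)
    (hC : arithmeticGalois (modularFunctionFieldFull N) τ • C = C) {v : Place Kbar (FN N)}
    {Q' : Place (IsLocalRing.ResidueField A) (FresBar N A)} (hv : v ∈ disc2 H Q') :
    arithmeticGalois (modularFunctionFieldFull N) τ • v ∈ disc2 H Q' :=
  smul_mem_disc2 (decompPair N A h τ
      (Fermat.Agent.S05.mem_decompositionSubgroup_of_mem_inertiaSubgroupIn hτ))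
    (decompRedAut_b_of_inertia A (modularFunctionFieldFull N) (hasGaussFrac_bar N A) hτ)
    (decompRedAut2_b_of_inertia N A h hτ) hC hv

/-- **(hG): inertia preserves the residue discs of the nodal frame** of the modular pair. -/
theorem preservesDiscs_of_inertia (H : NodalHyp hc P Q C C₁ C₂ g c n₀)
    {S1 S2 : Set (Place (IsLocalRing.ResidueField A) (FresBar N A))}
    (hFF : FF2 (redDataBar N A) (redData2 N A h) (disc1 H) (disc2 H) S1 S2)
    (hexcl : ∀ (X : Place Kbar (FN N))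
      (q' q'' : Place (IsLocalRing.ResidueField A) (FresBar N A)),
      (fibreHyp1_of_nodal H hFF).rOf X = some q' → (fibreHyp2_of_nodal H hFF).rOf X ≠ some q'')
    (g' : ℤ) {τ : Kbar ≃ₐ[ℚ] Kbar} (hτ : τ ∈ A.inertiaSubgroupIn ℚ)
    (hC : arithmeticGalois (modularFunctionFieldFull N) τ • C = C) :
    PreservesDiscs
      (glueData hc (fibreHyp1_of_nodal H hFF) (fibreHyp2_of_nodal H hFF) rfl hexcl P Q g')
      (arithmeticGalois (modularFunctionFieldFull N) τ) :=
  preservesDiscs_of_nodal (decompPair N A h τ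
      (Fermat.Agent.S05.mem_decompositionSubgroup_of_mem_inertiaSubgroupIn hτ)) H hFF hexcl g'
    (decompRedAut_b_of_inertia A (modularFunctionFieldFull N) (hasGaussFrac_bar N A) hτ)
    (decompRedAut2_b_of_inertia N A h hτ) hC

end Concrete

end Fermat.Agent.GS.Gal.DiscStable
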