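/-
GATE-S (S33) / node [GAL-I], binder (hG), INSTANCE (helper18): the pencil divisor
`CS N h = (j · j_q)_∞` of helper86's nodal frame (`GS/Nodal/Inst/Modular.lean`) is `G_ℚ`-stable,
hence the residue discs of the nodal frame of `X₀(N)`, `q ∥ N`, are stable under the inertia group
of `A | q` with NO hypothesis left.

* `smul_poleDiv`   : `g • (x)_∞ = (g x)_∞` for any semilinear automorphism (any function field);
* `galF_tS`, `smul_CS` : the symmetric chart has rational coefficients, `σ • CS N h = CS N h`;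
* `smul_mem_disc1_CS`, `smul_mem_disc2_CS`, **`preservesDiscs_CS`** : (hG) of
  `GS/Gal/FixChart.exists_fixed_chart` for every `NodalHyp` with pencil divisor `CS N h`.
-/
import Mathlib
import Fermat.Agent.GS.Gal.DiscStable
import Fermat.Agent.GS.Nodal.Inst.Modular

set_option autoImplicit false
set_option linter.unusedSectionVars false

noncomputable section

open AlgebraicCurve ModularCurve

namespace Fermat.Agent.GS.Gal.PencilStable

open Fermat.Agent.RRh45 Fermat.Agent.RR Fermat.Agent.GJ.J1 Fermat.Agent.GJ.J1.Val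
  Fermat.Agent.GK.MultiVal Fermat.Agent.GK.AL Fermat.Agent.GK.SymChart Fermat.Agent.GH.Gal
  Fermat.Agent.GS.Nodal.LSR2 Fermat.Agent.S24 Fermat.Agent.S24_helper62
  Fermat.Agent.GS.Gal.PairAct Fermat.Agent.GS.Gal.FixChart Fermat.Agent.GS.Gal.DiscStable
  Fermat.Agent.GS.Frame Fermat.Agent.GS.Frame.Local Fermat.Agent.GS.Frame.Glue
  Fermat.Agent.GS.Nodal.FibreHyp2 Fermat.Agent.GS.Nodal.ROfSurj2 Fermat.Agent.GS.Nodal.Inst

/-! ### pole divisors are transported -/

section Pole

variable {K F : Type*} [Field K] [Field F] [Algebra K F] [HasPrincipalDivisors K F]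

/-- `g • (x)_∞ = (g x)_∞` -/
theorem smul_poleDiv (g : SemilinearAut K F) (x : F) :
    g • Bound.poleDiv K x = Bound.poleDiv K (g • x) := by
  by_cases hx : x = 0
  · subst hx
    rw [smul_zero, Bound.poleDiv_zero, smul_zero]
  · have hgx : g • x ≠ 0 := fun h0 => hx ((smul_eq_zero_iff_eq g).1 h0)
    ext w
    rw [SemilinearAut.divisor_smul_apply, Bound.poleDiv_apply hx, Bound.poleDiv_apply hgx,
      ord_smul']

end Pole

/-! ### the symmetric chart is rational -/

section Modular

variable {q : ℕ} (N : ℕ) [NeZero N] [NeZero q]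

theorem galF_jdF' (σ : Kbar ≃ₐ[ℚ] Kbar) {d : ℕ} [NeZero d] (hd : d ∣ N) :
    galF N σ (jdF N d hd) = jdF N d hd := by
  have h := galF_gen (N := N) σ ⟨d, hd⟩
  rwa [gen_eq_jdF] at h

theorem galF_tS (σ : Kbar ≃ₐ[ℚ] Kbar) (hqN : q ∣ N) : galF N σ (tS N hqN) = tS N hqN := by
  unfold tS jF
  rw [map_mul, galF_jdF', galF_jdF']

variable (A : ValuationSubring Kbar) (h : ExactDvd q N)

attribute [local instance] finiteResidues_FN hasPrincipalDivisors_FN nonempty_place_FN
  isAlgClosed_res finiteResidues_Fres hasPrincipalDivisors_Fres nonempty_place_Fres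

/-- **the pencil divisor of the nodal frame is `G_ℚ`-stable.** -/
theorem smul_CS (σ : Kbar ≃ₐ[ℚ] Kbar) :
    arithmeticGalois (modularFunctionFieldFull N) σ • CS N h = CS N h := by
  unfold CS
  rw [smul_poleDiv]
  exact congrArg (Bound.poleDiv Kbar) (galF_tS N σ h.dvd)

variable {hc : RedCompat (redDataBar N A) (redData2 N A h)}
variable {ι : Type*} {P : ι → Place (IsLocalRing.ResidueField A) (FresBar N A)}
  {Q : ι → Place (IsLocalRing.ResidueField A) (FresBar N A)}
variable {C₁ C₂ : Divisor (IsLocalRing.ResidueField A) (FresBar N A)} {g c : ℤ} {n₀ : ℕ}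

/-- inertia preserves the discs of the first component of the nodal frame of `X₀(N)` -/
theorem smul_mem_disc1_CS (H : NodalHyp hc P Q (CS N h) C₁ C₂ g c n₀) {τ : Kbar ≃ₐ[ℚ] Kbar}
    (hτ : τ ∈ A.inertiaSubgroupIn ℚ) {v : Place Kbar (FN N)}
    {Q' : Place (IsLocalRing.ResidueField A) (FresBar N A)} (hv : v ∈ disc1 H Q') :
    arithmeticGalois (modularFunctionFieldFull N) τ • v ∈ disc1 H Q' :=
  smul_mem_disc1_of_inertia N A h H hτ (smul_CS N h τ) hv

/-- inertia preserves the discs of the second component of the nodal frame of `X₀(N)` -/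
theorem smul_mem_disc2_CS (H : NodalHyp hc P Q (CS N h) C₁ C₂ g c n₀) {τ : Kbar ≃ₐ[ℚ] Kbar}
    (hτ : τ ∈ A.inertiaSubgroupIn ℚ) {v : Place Kbar (FN N)}
    {Q' : Place (IsLocalRing.ResidueField A) (FresBar N A)} (hv : v ∈ disc2 H Q') :
    arithmeticGalois (modularFunctionFieldFull N) τ • v ∈ disc2 H Q' :=
  smul_mem_disc2_of_inertia N A h H hτ (smul_CS N h τ) hv

/-- **(hG), binder-free: inertia preserves the residue discs of the nodal frame of `X₀(N)`,
`q ∥ N`.** -/
theorem preservesDiscs_CS (H : NodalHyp hc P Q (CS N h) C₁ C₂ g c n₀)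
    {S1 S2 : Set (Place (IsLocalRing.ResidueField A) (FresBar N A))}
    (hFF : FF2 (redDataBar N A) (redData2 N A h) (disc1 H) (disc2 H) S1 S2)
    (hexcl : ∀ (X : Place Kbar (FN N))
      (q' q'' : Place (IsLocalRing.ResidueField A) (FresBar N A)),
      (fibreHyp1_of_nodal H hFF).rOf X = some q' → (fibreHyp2_of_nodal H hFF).rOf X ≠ some q'')
    (g' : ℤ) {τ : Kbar ≃ₐ[ℚ] Kbar} (hτ : τ ∈ A.inertiaSubgroupIn ℚ) :
    PreservesDiscs
      (glueData hc (fibreHyp1_of_nodal H hFF) (fibreHyp2_of_nodal H hFF) rfl hexcl P Q g')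
      (arithmeticGalois (modularFunctionFieldFull N) τ) :=
  preservesDiscs_of_inertia N A h H hFF hexcl g' hτ (smul_CS N h τ)

end Modular

end Fermat.Agent.GS.Gal.PencilStable
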