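/-
GATE-S (S33) / node [GAL-I] = sub-assembly A3, COMPLETE on the modular nodal frame (helper18, second
seat of helper26): ONE `I_A`-fixed chart of `nodalData H hFF`, in the spelling of the last conjunct
of `GS/Top/FramePlug.FrameNode`.

`q ∥ N`, `A | q`, `H : NodalHyp hc P Q (CS N h) C₁ C₂ g c n₀` any nodal hypothesis package on
`(redDataBar N A, redData2 N A h)` with helper86's pencil divisor `CS N h`, `hFF` the fibre formula.

* `exists_fixed_chartPt1`, `exists_fixed_chartPt2` : over every smooth place off `supp C_i` there is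
  a chart point whose PARAMETER is fixed by the inertia group of `A`
  (helper87 `ChartPt2RR.exists_param_i_rr` → `FixedLift2.exists_inertia_fixed_lift2` on
  `L(M • CS N h)`, which is `G_ℚ`-stable by `PencilStable.smul_CS` → `chartPt_of_param_i`);
* `exists_fixed_cpt` : the same on the glued frame `nodalData H hFF` (binder `hpt` of
  helper26's `FixChart.exists_fixed_chart`);
* `exists_equivariant_chart_of_points`, **`exists_equivariant_chart`** : from a chart supply, a
  chart `𝔠₀` with `IsCoord 𝔠₀ x τ → IsCoord 𝔠₀ (σ • x) (fun i => σ (τ i))` for all `σ ∈ I_A` and ALL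
  classes `x` (`hG := PencilStable.preservesDiscs_CS`).
-/
import Mathlib
import Fermat.Agent.GS.Gal.PencilStable
import Fermat.Agent.GS.Gal.FixedLift2
import Fermat.Agent.GS.Nodal.DiscFacts2
import Fermat.Agent.GS.Nodal.ChartPt2RR
import Fermat.Agent.GS.Nodal.Supply2

set_option autoImplicit false
set_option linter.unusedSectionVars false

noncomputable section

open AlgebraicCurve ModularCurve

namespace Fermat.Agent.GS.Gal.FixedChart2

open Fermat.Agent.RRh45 Fermat.Agent.RR Fermat.Agent.GJ.J1 Fermat.Agent.GJ.J1.Val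
  Fermat.Agent.GK.MultiVal Fermat.Agent.GK.AL Fermat.Agent.GH.Gal
  Fermat.Agent.GS.Nodal.LSR2 Fermat.Agent.S24 Fermat.Agent.S24_helper62
  Fermat.Agent.GS.Gal.PairAct Fermat.Agent.GS.Gal.FixChart Fermat.Agent.GS.Gal.DiscStable
  Fermat.Agent.GS.Gal.PencilStable Fermat.Agent.GS.Gal.FixedLift2
  Fermat.Agent.GS.Frame Fermat.Agent.GS.Frame.Local Fermat.Agent.GS.Frame.Glue
  Fermat.Agent.GS.Nodal.FibreHyp2 Fermat.Agent.GS.Nodal.ROfSurj2 Fermat.Agent.GS.Nodal.Inst
  Fermat.Agent.GS.Nodal.DiscFacts2 Fermat.Agent.GS.Nodal.L5 Fermat.Agent.GS.Nodal.ChartPt2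

variable {q : ℕ} (N : ℕ) [NeZero N] [NeZero q] (A : ValuationSubring Kbar) (h : ExactDvd q N)

attribute [local instance] finiteResidues_FN hasPrincipalDivisors_FN nonempty_place_FN
  isAlgClosed_res finiteResidues_Fres hasPrincipalDivisors_Fres nonempty_place_Fres

variable {hc : RedCompat (redDataBar N A) (redData2 N A h)}
variable {ι : Type*} {P : ι → Place (IsLocalRing.ResidueField A) (FresBar N A)}
  {Q : ι → Place (IsLocalRing.ResidueField A) (FresBar N A)}
variable {C₁ C₂ : Divisor (IsLocalRing.ResidueField A) (FresBar N A)} {g c : ℤ} {n₀ : ℕ}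
variable {S1 S2 : Set (Place (IsLocalRing.ResidueField A) (FresBar N A))}

/-- the inertia group as a set of semilinear automorphisms of `F_N`. -/
def inertiaSet : Set (SemilinearAut Kbar (FN N)) :=
  {σ | ∃ τ ∈ A.inertiaSubgroupIn ℚ, σ = arithmeticGalois (modularFunctionFieldFull N) τ}

/-- multiples of the pencil divisor are `G_ℚ`-stable. -/
theorem smul_nsmul_CS (M : ℕ) (σ : Kbar ≃ₐ[ℚ] Kbar) :
    arithmeticGalois (modularFunctionFieldFull N) σ • (M • CS N h) = M • CS N h :=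
  smul_nsmul_of_fixed _ M (smul_CS N h σ)

/-- **a chart point with inertia-fixed parameter** over a smooth place of the first component off
the support of `C₁`. -/
theorem exists_fixed_chartPt1 (hA : A.LiesOverPrime q)
    (H : NodalHyp hc P Q (CS N h) C₁ C₂ g c n₀)
    (hFF : FF2 (redDataBar N A) (redData2 N A h) (disc1 H) (disc2 H) S1 S2)
    {q' : Place (IsLocalRing.ResidueField A) (FresBar N A)} (hqS : q' ∈ S1)
    (hq : ∀ j, q' ≠ P j) (hC : C₁ q' = 0) :
    ∃ pt : ChartPt (fibreHyp1_of_nodal H hFF) q', ∀ τ ∈ A.inertiaSubgroupIn ℚ,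
      arithmeticGalois (modularFunctionFieldFull N) τ • pt.t = pt.t := by
  obtain ⟨M, t, h1, h2, -, ht, hred, hn1, hn2⟩ := exists_param1_rr H hq hC
  obtain ⟨t', ht', h1', h2', hfix, e1, e2⟩ := exists_inertia_fixed_lift2 A N h hA (M • CS N h)
    (fun τ _ => smul_nsmul_CS N h M τ) h1 h2 ht
  exact ⟨chartPt_of_param1 H hFF hqS h1' h2'
    (fun v hv => mem_valuationSubring_of_mem_rr1 hC ht' hv) (by rw [e1]; exact hred)
    (by rw [e1]; exact hn1) (by rw [e2]; exact hn2), hfix⟩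

/-- **a chart point with inertia-fixed parameter** over a smooth place of the second component off
the support of `C₂`. -/
theorem exists_fixed_chartPt2 (hA : A.LiesOverPrime q)
    (H : NodalHyp hc P Q (CS N h) C₁ C₂ g c n₀)
    (hFF : FF2 (redDataBar N A) (redData2 N A h) (disc1 H) (disc2 H) S1 S2)
    {q' : Place (IsLocalRing.ResidueField A) (FresBar N A)} (hqS : q' ∈ S2)
    (hq : ∀ j, q' ≠ Q j) (hC : C₂ q' = 0) :
    ∃ pt : ChartPt (fibreHyp2_of_nodal H hFF) q', ∀ τ ∈ A.inertiaSubgroupIn ℚ,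
      arithmeticGalois (modularFunctionFieldFull N) τ • pt.t = pt.t := by
  obtain ⟨M, t, h1, h2, -, ht, hred, hn1, hn2⟩ := exists_param2_rr H hq hC
  obtain ⟨t', ht', h1', h2', hfix, e1, e2⟩ := exists_inertia_fixed_lift2 A N h hA (M • CS N h)
    (fun τ _ => smul_nsmul_CS N h M τ) h1 h2 ht
  exact ⟨chartPt_of_param2 H hFF hqS h1' h2'
    (fun v hv => mem_valuationSubring_of_mem_rr2 hC ht' hv) (by rw [e2]; exact hred)
    (by rw [e1]; exact hn1) (by rw [e2]; exact hn2), hfix⟩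

variable [Finite ι] [Infinite (IsLocalRing.ResidueField A)]

/-- the exceptional set of special points: the supports of the reduced pencil divisors. -/
def excSet (H : NodalHyp hc P Q (CS N h) C₁ C₂ g c n₀)
    (hFF : FF2 (redDataBar N A) (redData2 N A h) (disc1 H) (disc2 H) S1 S2) :
    Finset (SpPt (fibreHyp1_of_nodal H hFF) (fibreHyp2_of_nodal H hFF)) :=
  ofFinsets (fibreHyp1_of_nodal H hFF) (fibreHyp2_of_nodal H hFF) C₁.support C₂.support

/-- **(hpt): chart points of the nodal frame with inertia-fixed parameter**, over every special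
point off the supports of the reduced pencil divisors. -/
theorem exists_fixed_cpt (hA : A.LiesOverPrime q) (H : NodalHyp hc P Q (CS N h) C₁ C₂ g c n₀)
    (hFF : FF2 (redDataBar N A) (redData2 N A h) (disc1 H) (disc2 H) S1 S2)
    (hS1 : ∀ q' ∈ S1, ∀ j, q' ≠ P j) (hS2 : ∀ q' ∈ S2, ∀ j, q' ≠ Q j)
    (s : SpPt (fibreHyp1_of_nodal H hFF) (fibreHyp2_of_nodal H hFF))
    (hs : s ∉ excSet N A h H hFF) :
    ∃ pt : CPt (nodalData H hFF) s, ∀ τ ∈ A.inertiaSubgroupIn ℚ,
      arithmeticGalois (modularFunctionFieldFull N) τ • pt.t = pt.t := by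
  rcases s with s | s
  · rw [excSet, inl_mem_ofFinsets, Finsupp.mem_support_iff, not_not] at hs
    obtain ⟨pt, hpt⟩ := exists_fixed_chartPt1 N A h hA H hFF s.2 (hS1 s.1 s.2) hs
    exact ⟨cptOfLocal₁ hc rfl (hexcl_of_nodal H hFF) P Q g pt, hpt⟩
  · rw [excSet, inr_mem_ofFinsets, Finsupp.mem_support_iff, not_not] at hs
    obtain ⟨pt, hpt⟩ := exists_fixed_chartPt2 N A h hA H hFF s.2 (hS2 s.1 s.2) hs
    exact ⟨cptOfLocal₂ hc rfl (hexcl_of_nodal H hFF) P Q g pt, hpt⟩

/-- A3 from chart points with fixed parameter: one `I_A`-fixed chart, on which the coordinates are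
`I_A`-equivariant. -/
theorem exists_equivariant_chart_of_points (H : NodalHyp hc P Q (CS N h) C₁ C₂ g c n₀)
    (hFF : FF2 (redDataBar N A) (redData2 N A h) (disc1 H) (disc2 H) S1 S2) {n : ℕ}
    (hsupply : ChartSupply (nodalData H hFF) n)
    (S : Finset (SpPt (fibreHyp1_of_nodal H hFF) (fibreHyp2_of_nodal H hFF)))
    (hpt : ∀ s, s ∉ S → ∃ pt : CPt (nodalData H hFF) s, ∀ τ ∈ A.inertiaSubgroupIn ℚ,
      arithmeticGalois (modularFunctionFieldFull N) τ • pt.t = pt.t) :
    ∃ 𝔠₀ : Chart (nodalData H hFF) n, (∀ i, 𝔠₀.Q i ∉ S) ∧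
      (∀ σ ∈ inertiaSet N A, FixesChart σ 𝔠₀) ∧
      ∀ σ ∈ A.inertiaSubgroupIn ℚ, ∀ (x : JZero N) (τ : Fin n → Kbar),
        IsCoord 𝔠₀ x τ → IsCoord 𝔠₀ (σ • x) (fun i => σ (τ i)) := by
  have hG : ∀ σ ∈ inertiaSet N A, PreservesDiscs (nodalData H hFF) σ := by
    rintro _ ⟨τ, hτ, rfl⟩
    exact preservesDiscs_CS N A h H hFF (hexcl_of_nodal H hFF) g hτ
  obtain ⟨𝔠₀, hS, hfix⟩ := exists_fixed_chart (discFacts_nodal H hFF) (inertiaSet N A) hG hsupply S
    (fun s hs => by
      obtain ⟨pt, hpt'⟩ := hpt s hs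
      refine ⟨pt, ?_⟩
      rintro _ ⟨τ, hτ, rfl⟩
      exact hpt' τ hτ)
  refine ⟨𝔠₀, hS, hfix, fun σ hσ x τ hx => ?_⟩
  exact isCoord_smul_of_fixed (hG _ ⟨σ, hσ, rfl⟩) (hfix _ ⟨σ, hσ, rfl⟩) hx

/-- **A3 = [GAL-I] on the modular nodal frame**: from a chart supply alone, ONE chart of
`nodalData H hFF` on which the coordinates of EVERY class are equivariant for the inertia group of
`A` — the last conjunct of `FrameNode` (there restricted to `x ∈ M⁰_p`). -/
theorem exists_equivariant_chart (hA : A.LiesOverPrime q)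
    (H : NodalHyp hc P Q (CS N h) C₁ C₂ g c n₀)
    (hFF : FF2 (redDataBar N A) (redData2 N A h) (disc1 H) (disc2 H) S1 S2)
    (hS1 : ∀ q' ∈ S1, ∀ j, q' ≠ P j) (hS2 : ∀ q' ∈ S2, ∀ j, q' ≠ Q j) {n : ℕ}
    (hsupply : ChartSupply (nodalData H hFF) n) :
    ∃ 𝔠₀ : Chart (nodalData H hFF) n,
      ∀ σ ∈ A.inertiaSubgroupIn ℚ, ∀ (x : JZero N) (τ : Fin n → Kbar),
        IsCoord 𝔠₀ x τ → IsCoord 𝔠₀ (σ • x) (fun i => σ (τ i)) := by
  obtain ⟨𝔠₀, -, -, h𝔠⟩ := exists_equivariant_chart_of_points N A h H hFF hsupply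
    (excSet N A h H hFF) (exists_fixed_cpt N A h hA H hFF hS1 hS2)
  exact ⟨𝔠₀, h𝔠⟩

end Fermat.Agent.GS.Gal.FixedChart2
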