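/-
GATE-S (S33) / node [GAL-I], the `hpt` binder of `FixChart.exists_fixed_chart` (helper26):
**chart points with a `G`-fixed parameter on a two-valuation frame.**

Abstract setting: `R : RedData K F k Ft` is one component, `R' : RedData K F k Ft'` the other one,
`Φ : FibreHyp R` a local frame whose global unit ball is `Rw ⊓ Rw'` (`hB`).  `G` is a set of
semilinear automorphisms of `F / K` (the inertia group) with the PAIR FIXED-LIFT property
`FixedLift2 R R' G` (`GS/Gal/FixedLift2.exists_inertia_fixed_lift2` of helper18, verbatim): every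
`x ∈ L(D) ∩ Rw ∩ Rw'`, `D` a `G`-stable divisor, has a `G`-fixed `x' ∈ L(D) ∩ Rw ∩ Rw'` with the same
two reductions.

* `isU_of_red_eq`            : being a unit of the ball depends only on the two reductions;
* `exists_fixed_chartPt`     : a chart point whose parameter lies in `L(D)`, `D` `G`-stable without
                               pole on the disc, can be replaced by a chart point over the same
                               special place whose PARAMETER IS `G`-FIXED (the fixed lift of the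
                               parameter has the same reductions, hence is again a parameter;
                               centre = its unique zero on the disc, `chartPtOfParam` of helper48);
* `hpt_glue`                 : the `hpt` binder of `FixChart.exists_fixed_chart` for the glued disc
                               frame `glueData hc Φ1 Φ2 hB2 hexcl P Q g` of helper34, from the two
                               component statements.
-/
import Mathlib
import Fermat.Agent.GS.Frame.Loc.Values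
import Fermat.Agent.GS.Frame.Glue.Supply
import Fermat.Agent.GS.Gal.FixChart

set_option autoImplicit false
set_option linter.unusedSectionVars false

noncomputable section

open AlgebraicCurve

namespace Fermat.Agent.GS.Gal.FixPt2

open Fermat.Agent.RRh45 Fermat.Agent.GJ.J1 Fermat.Agent.S24 Fermat.Agent.GK.MultiVal
open Fermat.Agent.GS.Frame Fermat.Agent.GS.Frame.Local

variable {K F k Ft Ft' : Type*} [Field K] [Field F] [Algebra K F] [Field k]
  [Field Ft] [Algebra k Ft] [Field Ft'] [Algebra k Ft']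

/-- **the pair fixed-lift property** of a set `G` of semilinear automorphisms: every
`x ∈ L(D) ∩ Rw ∩ Rw'`, `D` a `G`-stable divisor, has a `G`-fixed `x' ∈ L(D) ∩ Rw ∩ Rw'` with the
same two reductions. -/
def FixedLift2 (R : RedData K F k Ft) (R' : RedData K F k Ft') (G : Set (SemilinearAut K F)) :
    Prop :=
  ∀ D : Divisor K F, (∀ σ ∈ G, σ • D = D) → ∀ (x : F) (h1 : x ∈ R.Rw) (h2 : x ∈ R'.Rw),
    x ∈ riemannRochSpace D →
    ∃ x' : F, x' ∈ riemannRochSpace D ∧ ∃ (h1' : x' ∈ R.Rw) (h2' : x' ∈ R'.Rw),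
      (∀ σ ∈ G, σ • x' = x') ∧ R.red ⟨x', h1'⟩ = R.red ⟨x, h1⟩ ∧ R'.red ⟨x', h2'⟩ = R'.red ⟨x, h2⟩

theorem FixedLift2.symm {R : RedData K F k Ft} {R' : RedData K F k Ft'}
    {G : Set (SemilinearAut K F)} (h : FixedLift2 R R' G) : FixedLift2 R' R G := by
  intro D hD x h1 h2 hx
  obtain ⟨x', hx', h1', h2', hfix, e1, e2⟩ := h D hD x h2 h1 hx
  exact ⟨x', hx', h2', h1', hfix, e2, e1⟩

/-- an element with nonzero reduction has an integral inverse. -/
theorem inv_mem_of_red_ne_zero {E : Type*} [Field E] [Algebra k E] (R : RedData K F k E) {y : F}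
    (h : y ∈ R.Rw) (hy : R.red ⟨y, h⟩ ≠ 0) : y⁻¹ ∈ R.Rw := by
  have hu : IsUnit (⟨y, h⟩ : R.Rw) := by
    by_contra hnu
    exact hy ((R.red_eq_zero_iff _).mpr ((IsLocalRing.mem_maximalIdeal _).mpr hnu))
  obtain ⟨u, hu⟩ := hu
  have h' : y * ((↑u⁻¹ : R.Rw) : F) = 1 := by
    have := congrArg Subtype.val (Units.mul_inv u)
    rw [hu] at this
    exact this
  rw [← eq_inv_of_mul_eq_one_right h']
  exact (↑u⁻¹ : R.Rw).2

/-- an integral element with integral inverse has a nonzero reduction. -/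
theorem red_ne_zero_of_inv_mem' {E : Type*} [Field E] [Algebra k E] (R : RedData K F k E) {y : F}
    (hy0 : y ≠ 0) (h : y ∈ R.Rw) (hi : y⁻¹ ∈ R.Rw) : R.red ⟨y, h⟩ ≠ 0 := by
  intro h0
  have e : (⟨y, h⟩ : R.Rw) * ⟨y⁻¹, hi⟩ = 1 := by
    apply Subtype.ext
    show y * y⁻¹ = 1
    exact mul_inv_cancel₀ hy0
  have := congrArg R.red e
  rw [map_mul, h0, zero_mul, map_one] at this
  exact zero_ne_one this

variable {R : RedData K F k Ft} {R' : RedData K F k Ft'}

/-- **being a unit of the ball `Rw ⊓ Rw'` depends only on the two reductions.** -/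
theorem isU_of_red_eq (Φ : FibreHyp R) (hB : ∀ x, x ∈ Φ.B ↔ x ∈ R.Rw ∧ x ∈ R'.Rw) {y y' : F}
    (hy : IsU Φ y) (h1 : y ∈ R.Rw) (h2 : y ∈ R'.Rw) (h1' : y' ∈ R.Rw) (h2' : y' ∈ R'.Rw)
    (e1 : R.red ⟨y', h1'⟩ = R.red ⟨y, h1⟩) (e2 : R'.red ⟨y', h2'⟩ = R'.red ⟨y, h2⟩) :
    IsU Φ y' := by
  obtain ⟨hy0, -, hyi⟩ := hy
  have hi := (hB y⁻¹).1 hyi
  have n1 : R.red ⟨y', h1'⟩ ≠ 0 := by rw [e1]; exact red_ne_zero_of_inv_mem' R hy0 h1 hi.1
  have n2 : R'.red ⟨y', h2'⟩ ≠ 0 := by rw [e2]; exact red_ne_zero_of_inv_mem' R' hy0 h2 hi.2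
  refine ⟨?_, (hB y').2 ⟨h1', h2'⟩, (hB y'⁻¹).2
    ⟨inv_mem_of_red_ne_zero R h1' n1, inv_mem_of_red_ne_zero R' h2' n2⟩⟩
  rintro rfl
  exact n1 (map_zero R.red)

variable [HasPrincipalDivisors K F]

/-- **chart points with a `G`-fixed parameter**: a chart point whose parameter lies in `L(D)`, `D`
a `G`-stable divisor without pole on the disc, can be replaced by a chart point over the same
special place whose parameter is fixed by every element of `G`. -/
theorem exists_fixed_chartPt (Φ : FibreHyp R) (hB : ∀ x, x ∈ Φ.B ↔ x ∈ R.Rw ∧ x ∈ R'.Rw)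
    {G : Set (SemilinearAut K F)} (hlift : FixedLift2 R R' G)
    {q : Place k Ft} (pt : ChartPt Φ q) (D : Divisor K F) (hD : ∀ σ ∈ G, σ • D = D)
    (hDq : ∀ v ∈ disc Φ q, D v ≤ 0) (ht : pt.t ∈ riemannRochSpace D) :
    ∃ pt' : ChartPt Φ q, ∀ σ ∈ G, σ • pt'.t = pt'.t := by
  have hmem := (hB pt.t).1 pt.ht.1
  obtain ⟨t', ht'D, h1', h2', hfix, e1, e2⟩ := hlift D hD pt.t hmem.1 hmem.2 ht
  have ht'B : t' ∈ Φ.B := (hB t').2 ⟨h1', h2'⟩
  have ht'O : t' ∈ Odisc Φ q := by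
    refine ⟨ht'B, fun v hv => ?_⟩
    by_cases h0 : t' = 0
    · rw [h0]; exact zero_mem _
    · have h := ((mem_riemannRochSpace_iff.mp ht'D) v).resolve_left h0
      have := hDq v hv
      exact (PlaceB.ord_nonneg_iff v h0).mp (by omega)
  have hred : q.ord (R.red ⟨t', Φ.B_le t' ht'O.1⟩) = 1 := by
    have : R.red ⟨t', Φ.B_le t' ht'O.1⟩ = R.red ⟨pt.t, Φ.B_le pt.t pt.ht.1⟩ := e1
    rw [this]
    exact pt.hred
  have hU : ∀ a ∈ R.A, IsU Φ (t' - algebraMap K F a) := by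
    intro a ha
    have haB := (hB _).1 (Φ.const_mem_B a ha)
    have hs1 : (⟨t' - algebraMap K F a, sub_mem h1' haB.1⟩ : R.Rw)
        = ⟨t', h1'⟩ - ⟨algebraMap K F a, haB.1⟩ := rfl
    have hs1' : (⟨pt.t - algebraMap K F a, sub_mem hmem.1 haB.1⟩ : R.Rw)
        = ⟨pt.t, hmem.1⟩ - ⟨algebraMap K F a, haB.1⟩ := rfl
    have hs2 : (⟨t' - algebraMap K F a, sub_mem h2' haB.2⟩ : R'.Rw)
        = ⟨t', h2'⟩ - ⟨algebraMap K F a, haB.2⟩ := rfl
    have hs2' : (⟨pt.t - algebraMap K F a, sub_mem hmem.2 haB.2⟩ : R'.Rw)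
        = ⟨pt.t, hmem.2⟩ - ⟨algebraMap K F a, haB.2⟩ := rfl
    refine isU_of_red_eq Φ hB (pt.hU a ha) (sub_mem hmem.1 haB.1) (sub_mem hmem.2 haB.2)
      (sub_mem h1' haB.1) (sub_mem h2' haB.2) ?_ ?_
    · rw [hs1, hs1', map_sub, map_sub, e1]
    · rw [hs2, hs2', map_sub, map_sub, e2]
  exact ⟨chartPtOfParam ht'O pt.hQ hred hU, fun σ hσ => hfix σ hσ⟩

/-! ### the glued frame -/

section Glue

open Fermat.Agent.GS.Frame.Glue

variable {Ft1 Ft2 : Type*} [Field Ft1] [Algebra k Ft1] [Field Ft2] [Algebra k Ft2]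
variable {R1 : RedData K F k Ft1} {R2 : RedData K F k Ft2}
variable {Φ1 : FibreHyp R1} {Φ2 : FibreHyp R2}

/-- **the `hpt` binder of `FixChart.exists_fixed_chart` on the glued disc frame**, from chart
points with `G`-fixed parameter on the two components (off a finite set `S` of special points). -/
theorem hpt_glue (hc : RedCompat R1 R2) (hB2 : Φ2.B = Φ1.B)
    (hexcl : ∀ (X : Place K F) (q : Place k Ft1) (q' : Place k Ft2),
      Φ1.rOf X = some q → Φ2.rOf X ≠ some q')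
    {ι : Type*} (P : ι → Place k Ft1) (Q : ι → Place k Ft2) (g : ℤ)
    (G : Set (SemilinearAut K F)) (S : Finset (SpPt Φ1 Φ2))
    (h1 : ∀ q : {q : Place k Ft1 // q ∈ Φ1.good}, Sum.inl q ∉ S →
      ∃ pt : ChartPt Φ1 q.1, ∀ σ ∈ G, σ • pt.t = pt.t)
    (h2 : ∀ q : {q : Place k Ft2 // q ∈ Φ2.good}, Sum.inr q ∉ S →
      ∃ pt : ChartPt Φ2 q.1, ∀ σ ∈ G, σ • pt.t = pt.t) :
    ∀ s : SpPt Φ1 Φ2, s ∉ S →
      ∃ pt : CPt (glueData hc Φ1 Φ2 hB2 hexcl P Q g) s, ∀ σ ∈ G, σ • pt.t = pt.t := by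
  rintro (q | q) hs
  · obtain ⟨pt, hpt⟩ := h1 q hs
    exact ⟨cptOfLocal₁ hc hB2 hexcl P Q g pt, hpt⟩
  · obtain ⟨pt, hpt⟩ := h2 q hs
    exact ⟨cptOfLocal₂ hc hB2 hexcl P Q g pt, hpt⟩

/-- **a `G`-fixed chart of the glued disc frame off a finite set of special points**, from:
the disc facts, `G` preserving the discs, the chart supply, the pair fixed-lift property of `G`,
and over every special point off `S` a chart point whose parameter lies in `L(D)` for a `G`-stable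
divisor `D` without pole on the disc. -/
theorem exists_fixed_chart_glue (hc : RedCompat R1 R2) (hB2 : Φ2.B = Φ1.B)
    (hexcl : ∀ (X : Place K F) (q : Place k Ft1) (q' : Place k Ft2),
      Φ1.rOf X = some q → Φ2.rOf X ≠ some q')
    {ι : Type*} (P : ι → Place k Ft1) (Q : ι → Place k Ft2) (g : ℤ)
    (hB : ∀ x, x ∈ Φ1.B ↔ x ∈ R1.Rw ∧ x ∈ R2.Rw)
    (hΦ : DiscFacts (glueData hc Φ1 Φ2 hB2 hexcl P Q g)) (G : Set (SemilinearAut K F))
    (hG : ∀ σ ∈ G, FixChart.PreservesDiscs (glueData hc Φ1 Φ2 hB2 hexcl P Q g) σ)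
    (hlift : FixedLift2 R1 R2 G) {n : ℕ}
    (hsupply : ChartSupply (glueData hc Φ1 Φ2 hB2 hexcl P Q g) n) (S : Finset (SpPt Φ1 Φ2))
    (h1 : ∀ q : {q : Place k Ft1 // q ∈ Φ1.good}, Sum.inl q ∉ S →
      ∃ (pt : ChartPt Φ1 q.1) (D : Divisor K F), (∀ σ ∈ G, σ • D = D) ∧
        (∀ v ∈ disc Φ1 q.1, D v ≤ 0) ∧ pt.t ∈ riemannRochSpace D)
    (h2 : ∀ q : {q : Place k Ft2 // q ∈ Φ2.good}, Sum.inr q ∉ S →
      ∃ (pt : ChartPt Φ2 q.1) (D : Divisor K F), (∀ σ ∈ G, σ • D = D) ∧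
        (∀ v ∈ disc Φ2 q.1, D v ≤ 0) ∧ pt.t ∈ riemannRochSpace D) :
    ∃ 𝔠 : Chart (glueData hc Φ1 Φ2 hB2 hexcl P Q g) n,
      (∀ i, 𝔠.Q i ∉ S) ∧ ∀ σ ∈ G, FixChart.FixesChart σ 𝔠 := by
  have hB' : ∀ x, x ∈ Φ2.B ↔ x ∈ R2.Rw ∧ x ∈ R1.Rw := fun x => by
    rw [hB2, hB x]; exact and_comm
  refine FixChart.exists_fixed_chart hΦ G hG hsupply S
    (hpt_glue hc hB2 hexcl P Q g G S (fun q hq => ?_) (fun q hq => ?_))
  · obtain ⟨pt, D, hD, hDq, ht⟩ := h1 q hq
    exact exists_fixed_chartPt Φ1 hB hlift pt D hD hDq ht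
  · obtain ⟨pt, D, hD, hDq, ht⟩ := h2 q hq
    exact exists_fixed_chartPt Φ2 hB' hlift.symm pt D hD hDq ht

end Glue

end Fermat.Agent.GS.Gal.FixPt2

end
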