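/-
GATE-S (S33) / node [GAL-I] (helper26): the pair fixed-lift property `FixPt2.FixedLift2` for the
image of the inertia group `I_A` in the semilinear automorphisms of `F_N = ℚ̄(X₀(N))`, `q ∥ N`,
`A | q` — helper18's `GS/Gal/FixedLift2.exists_inertia_fixed_lift2` in the abstract spelling.
-/
import Fermat.Agent.GS.Gal.FixPt2
import Fermat.Agent.GS.Gal.FixedLift2

set_option autoImplicit false
set_option linter.style.haveILetI false

noncomputable section

namespace Fermat.Agent.GS.Gal.FixPt2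

open HahnSeries ModularCurve IsLocalRing AlgebraicCurve
open Fermat.Agent.S24 Fermat.Agent.S24_helper62
open Fermat.Agent.GJ.J1 Fermat.Agent.GJ.J1.Val Fermat.Agent.GJ.FiniteLevel
open Fermat.Agent.GK.AL Fermat.Agent.GK.MultiVal
open Fermat.Agent.GL.Val.GaussK0 Fermat.Agent.GL.Val.SecondK0
open Fermat.Agent.GL.Local.InertiaField
open Fermat.Agent.GL.Coh.InvDescentFK Fermat.Agent.GL.Base.RatDescent
open Fermat.Agent.GL.RatLift Fermat.Agent.GL.RatLiftK0
open Fermat.Agent.Common_helper32

variable (A : ValuationSubring Qb) (N : ℕ) [NeZero N] {q : ℕ} (h : ExactDvd q N)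

/-- the image of the inertia group of `A` in the semilinear automorphisms of `F_N`. -/
def inertiaSet : Set (SemilinearAut Qb (FN N)) :=
  {σ | ∃ τ ∈ A.inertiaSubgroupIn ℚ, σ = arithmeticGalois (modularFunctionFieldFull N) τ}

theorem mem_inertiaSet {τ : GQ} (hτ : τ ∈ A.inertiaSubgroupIn ℚ) :
    arithmeticGalois (modularFunctionFieldFull N) τ ∈ inertiaSet A N :=
  ⟨τ, hτ, rfl⟩

/-- **the pair fixed-lift property of inertia** (helper18), abstract spelling. -/
theorem fixedLift2_inertia (hA : (q : Qb) ∈ A.nonunits) :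
    FixedLift2 (redDataBar N A) (redData2 N A h) (inertiaSet A N) := by
  intro D hD x h1 h2 hx
  obtain ⟨x', hx', h1', h2', hfix, e1, e2⟩ :=
    Fermat.Agent.GS.Gal.FixedLift2.exists_inertia_fixed_lift2 A N h hA D
      (fun τ hτ => hD _ (mem_inertiaSet A N hτ)) h1 h2 hx
  refine ⟨x', hx', h1', h2', ?_, e1, e2⟩
  rintro σ ⟨τ, hτ, rfl⟩
  exact hfix τ hτ

end Fermat.Agent.GS.Gal.FixPt2

end
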